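import Mathlib.RingTheory.Valuation.ValuationSubring
import Mathlib.RingTheory.DiscreteValuationRing.Basic
import Mathlib.Algebra.Polynomial.AlgebraMap
import Mathlib.RingTheory.Localization.FractionRing

/-!
# A2 / ALG (c1), part 2: valuation bookkeeping (helper313)

Setting: `R` a discrete valuation ring with uniformiser `w`, `E = Frac R`, `L / E` a field,
`V` a valuation subring of `L` containing `R` in which `w` is a non-unit generating the
non-units (`e = 1`).
-/

set_option autoImplicit false
set_option linter.unusedSectionVars false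

namespace Fermat.Agent.A2.H313

open Polynomial IsLocalRing

section Setup

variable {R : Type*} (E : Type*) {L : Type*} [CommRing R] [IsDomain R]
  [IsDiscreteValuationRing R]
  [Field E] [Algebra R E] [IsFractionRing R E]
  [Field L] [Algebra E L] [Algebra R L] [IsScalarTower R E L]

include E in
theorem algebraMap_RL_injective : Function.Injective (algebraMap R L) := by
  rw [IsScalarTower.algebraMap_eq R E L]
  exact (algebraMap E L).injective.comp (IsFractionRing.injective R E)

/-- The hypotheses on `V`: `w` is a uniformiser of `R`, `V` contains `R`, `w` is a non-unit of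
`V`, and every non-unit of `V` is divisible by `w` in `V`. -/
structure UnifIn (w : R) (V : ValuationSubring L) : Prop where
  irr : Irreducible w
  mem : ∀ r : R, algebraMap R L r ∈ V
  nonunit : algebraMap R L w ∈ V.nonunits
  gen : ∀ x ∈ V.nonunits, ∃ y ∈ V, x = algebraMap R L w * y

variable {E} {w : R} {V : ValuationSubring L}

namespace UnifIn

variable (h : UnifIn w V)
include h

theorem val_w_lt_one : V.valuation (algebraMap R L w) < 1 :=
  (ValuationSubring.mem_nonunits_iff V).1 h.nonunit

theorem val_le_one (r : R) : V.valuation (algebraMap R L r) ≤ 1 :=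
  (V.valuation_le_one_iff _).2 (h.mem r)

theorem val_unit {r : R} (hr : IsUnit r) : V.valuation (algebraMap R L r) = 1 := by
  obtain ⟨u, rfl⟩ := hr
  refine le_antisymm (h.val_le_one _) ?_
  have h1 : V.valuation (algebraMap R L (u : R)) * V.valuation (algebraMap R L ((u⁻¹ : Rˣ) : R))
      = 1 := by
    rw [← map_mul, ← map_mul, Units.mul_inv, map_one, map_one]
  calc (1 : V.ValueGroup) = V.valuation (algebraMap R L (u : R)) *
        V.valuation (algebraMap R L ((u⁻¹ : Rˣ) : R)) := h1.symm
    _ ≤ V.valuation (algebraMap R L (u : R)) * 1 := by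
        gcongr
        exact h.val_le_one _
    _ = _ := mul_one _

theorem val_le_w_of_lt_one {x : L} (hx : V.valuation x < 1) :
    V.valuation x ≤ V.valuation (algebraMap R L w) := by
  obtain ⟨y, hy, rfl⟩ := h.gen x ((ValuationSubring.mem_nonunits_iff V).2 hx)
  rw [map_mul]
  calc V.valuation (algebraMap R L w) * V.valuation y
      ≤ V.valuation (algebraMap R L w) * 1 := by
        gcongr
        exact (V.valuation_le_one_iff _).2 hy
    _ = _ := mul_one _

theorem val_le_w_of_mem_maximalIdeal {r : R} (hr : r ∈ maximalIdeal R) :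
    V.valuation (algebraMap R L r) ≤ V.valuation (algebraMap R L w) := by
  rw [h.irr.maximalIdeal_eq, Ideal.mem_span_singleton] at hr
  obtain ⟨c, rfl⟩ := hr
  rw [map_mul, map_mul]
  calc V.valuation (algebraMap R L w) * V.valuation (algebraMap R L c)
      ≤ V.valuation (algebraMap R L w) * 1 := by
        gcongr
        exact h.val_le_one _
    _ = _ := mul_one _

include E in
theorem w_ne_zero : algebraMap R L w ≠ 0 := fun h0 =>
  h.irr.ne_zero ((map_eq_zero_iff _ (algebraMap_RL_injective E)).1 h0)

include E in
theorem val_w_pos : 0 < V.valuation (algebraMap R L w) :=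
  (Valuation.pos_iff _).2 (h.w_ne_zero (E := E))

/-- Valuation of a nonzero element of `R`. -/
theorem val_eq_pow {r : R} (hr : r ≠ 0) :
    ∃ (n : ℕ) (u : Rˣ), r = u * w ^ n ∧
      V.valuation (algebraMap R L r) = V.valuation (algebraMap R L w) ^ n := by
  obtain ⟨n, u, rfl⟩ := IsDiscreteValuationRing.eq_unit_mul_pow_irreducible hr h.irr
  refine ⟨n, u, rfl, ?_⟩
  rw [map_mul, map_mul, h.val_unit u.isUnit, one_mul, map_pow, map_pow]

include E in
/-- `R ∩ wⁿ V = wⁿ R`. -/
theorem pow_dvd_of_val_le {r : R} {n : ℕ}
    (hr : V.valuation (algebraMap R L r) ≤ V.valuation (algebraMap R L w) ^ n) : w ^ n ∣ r := by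
  rcases eq_or_ne r 0 with rfl | hr0
  · exact dvd_zero _
  obtain ⟨k, u, rfl, hk⟩ := h.val_eq_pow hr0
  rw [hk, pow_le_pow_iff_right_of_lt_one₀ (h.val_w_pos (E := E)) h.val_w_lt_one] at hr
  exact Dvd.dvd.mul_left (pow_dvd_pow w hr) _

include E in
theorem val_pow_injective {m n : ℕ}
    (hmn : V.valuation (algebraMap R L w) ^ m = V.valuation (algebraMap R L w) ^ n) : m = n :=
  (pow_right_strictAnti₀ (h.val_w_pos (E := E)) h.val_w_lt_one).injective hmn

/-- Elements of `R[X]` evaluated at elements of `V` lie in `V`. -/
theorem aeval_mem (p : R[X]) {a : L} (ha : a ∈ V) : aeval a p ∈ V := by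
  induction p using Polynomial.induction_on' with
  | add p q hp hq =>
    rw [map_add]
    exact V.add_mem _ _ hp hq
  | monomial n r =>
    rw [aeval_monomial]
    exact V.mul_mem _ _ (h.mem r) (pow_mem ha n)

end UnifIn

end Setup

end Fermat.Agent.A2.H313
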