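import Mathlib.FieldTheory.IsAlgClosed.Basic
import Mathlib.RingTheory.Localization.Integral
import Mathlib.Algebra.Polynomial.Splits
import Mathlib.Algebra.Polynomial.RingDivision
import Mathlib.RingTheory.Algebraic.Basic
import Mathlib.Algebra.Polynomial.Inductions
import Fermat.Agent.A2.H313.HensVal

/-!
# A2 / ALG (c1), part 3: `w`-adic approximation of algebraic elements (helper313)

Setting as in `HensVal.lean`, residue field of `R` algebraically closed.
Every `a ∈ V` algebraic over `E = Frac R` is, for every `N`, of the form `s + wᴺ a'` with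
`s ∈ R` and `a' ∈ V` (`exists_approx`).  Every nonzero algebraic `x ∈ V` is `w^δ · (unit of V)`
(`exists_pow_mul_unit`).
-/

set_option autoImplicit false
set_option linter.unusedSectionVars false

namespace Fermat.Agent.A2.H313

open Polynomial IsLocalRing

section Setup

variable {R : Type*} (E : Type*) {L : Type*} [CommRing R] [IsDomain R]
  [IsDiscreteValuationRing R]
  [Field E] [Algebra R E] [IsFractionRing R E]
  [Field L] [Algebra E L] [Algebra R L] [IsScalarTower R E L]
  {w : R} {V : ValuationSubring L}

namespace UnifIn

variable (h : UnifIn w V)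
include h

include E in
/-- Removing the common powers of `w` from an annihilating polynomial. -/
theorem strip_aux {a : L} : ∀ (n : ℕ) (p : R[X]) (i : ℕ) (u : Rˣ), p.coeff i = u * w ^ n →
    aeval a p = 0 → ∃ p' : R[X], aeval a p' = 0 ∧ p'.map (residue R) ≠ 0 := by
  intro n
  induction n with
  | zero =>
    intro p i u hc hp
    refine ⟨p, hp, fun h0 => ?_⟩
    have h1 := congrArg (fun q => q.coeff i) h0
    simp only [coeff_map, coeff_zero, hc, pow_zero, mul_one] at h1
    exact ((residue_eq_zero_iff (u : R)).1 h1) u.isUnit
  | succ n ih =>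
    intro p i u hc hp
    by_cases h0 : p.map (residue R) = 0
    · have hdvd : C w ∣ p := by
        rw [C_dvd_iff_dvd_coeff]
        intro j
        have h1 := congrArg (fun q => q.coeff j) h0
        simp only [coeff_map, coeff_zero] at h1
        have h2 := (residue_eq_zero_iff (p.coeff j)).1 h1
        rwa [h.irr.maximalIdeal_eq, Ideal.mem_span_singleton] at h2
      obtain ⟨p₁, rfl⟩ := hdvd
      have hp1 : aeval a p₁ = 0 := by
        rw [map_mul, aeval_C] at hp
        exact (mul_eq_zero.1 hp).resolve_left (h.w_ne_zero (E := E))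
      have hc1 : p₁.coeff i = u * w ^ n := by
        rw [coeff_C_mul, pow_succ] at hc
        have : w * p₁.coeff i = w * (u * w ^ n) := by rw [hc]; ring
        exact mul_left_cancel₀ h.irr.ne_zero this
      exact ih p₁ i u hc1 hp1
    · exact ⟨p, hp, h0⟩

include E in
/-- An element of `L` algebraic over `E` is annihilated by a polynomial over `R` which is
nonzero modulo the maximal ideal. -/
theorem exists_primitive_annihilator {a : L} (ha : IsAlgebraic E a) :
    ∃ p : R[X], aeval a p = 0 ∧ p.map (residue R) ≠ 0 := by
  obtain ⟨p, hp0, hp⟩ := (IsFractionRing.isAlgebraic_iff R E L).2 ha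
  obtain ⟨i, hi⟩ : ∃ i, p.coeff i ≠ 0 := by
    by_contra hcon
    simp only [not_exists, not_not] at hcon
    exact hp0 (Polynomial.ext fun i => by simpa using hcon i)
  obtain ⟨n, u, hu⟩ := IsDiscreteValuationRing.eq_unit_mul_pow_irreducible hi h.irr
  exact h.strip_aux E n p i u hu hp

omit h in
theorem val_multiset_prod_eq_one (s : Multiset L) (hs : ∀ x ∈ s, V.valuation x = 1) :
    V.valuation s.prod = 1 := by
  induction s using Multiset.induction_on with
  | empty => simp
  | cons a s ih =>
    rw [Multiset.prod_cons, map_mul, hs a (Multiset.mem_cons_self a s),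
      ih (fun x hx => hs x (Multiset.mem_cons_of_mem hx)), one_mul]

include E in
/-- **First approximation**: an algebraic element of `V` is congruent to an element of `R`
modulo the non-units of `V` (the residue field of `R` is algebraically closed). -/
theorem exists_approx_one [IsAlgClosed (ResidueField R)] {a : L} (haV : a ∈ V)
    (ha : IsAlgebraic E a) : ∃ r : R, V.valuation (a - algebraMap R L r) < 1 := by
  classical
  obtain ⟨p, hp, hp0⟩ := h.exists_primitive_annihilator E ha
  set pb : (ResidueField R)[X] := p.map (residue R) with hpb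
  have hsplit : pb.Splits := IsAlgClosed.splits pb
  have hprod := hsplit.eq_prod_roots
  -- lift the roots and the leading coefficient
  set σ : ResidueField R → R := Function.surjInv (residue_surjective (R := R)) with hσ
  have hσr : ∀ x, residue R (σ x) = x := Function.surjInv_eq _
  set c : R := σ pb.leadingCoeff with hc
  set G : R[X] := C c * ((pb.roots.map σ).map (fun α => X - C α)).prod with hG
  have hGmap : G.map (residue R) = pb := by
    rw [hG, Polynomial.map_mul, map_C, hc, hσr, Polynomial.map_multiset_prod, Multiset.map_map,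
      Multiset.map_map]
    conv_rhs => rw [hprod]
    congr 2
    refine Multiset.map_congr rfl fun x _ => ?_
    simp [hσr]
  have hdvd : C w ∣ p - G := by
    rw [C_dvd_iff_dvd_coeff]
    intro j
    have h1 : ((p - G).map (residue R)).coeff j = 0 := by
      rw [Polynomial.map_sub, hGmap, ← hpb, sub_self, coeff_zero]
    rw [coeff_map] at h1
    have h2 := (residue_eq_zero_iff _).1 h1
    rwa [h.irr.maximalIdeal_eq, Ideal.mem_span_singleton] at h2
  obtain ⟨q, hq⟩ := hdvd
  have hpG : p = G + C w * q := by rw [← hq]; ring
  -- evaluate at `a`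
  have hGa : aeval a G = -(algebraMap R L w * aeval a q) := by
    have h1 : aeval a (C w * q) = algebraMap R L w * aeval a q := by
      rw [map_mul, aeval_C]
    have := hp
    rw [hpG, map_add, h1] at this
    exact eq_neg_of_add_eq_zero_left this
  have hvG : V.valuation (aeval a G) < 1 := by
    rw [hGa, Valuation.map_neg, map_mul]
    calc V.valuation (algebraMap R L w) * V.valuation (aeval a q)
        ≤ V.valuation (algebraMap R L w) * 1 := by
          gcongr
          exact (V.valuation_le_one_iff _).2 (h.aeval_mem q haV)
      _ = V.valuation (algebraMap R L w) := mul_one _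
      _ < 1 := h.val_w_lt_one
  -- the leading coefficient is a unit
  have hcu : IsUnit c := by
    by_contra hcon
    have hcm : c ∈ maximalIdeal R := hcon
    have : residue R c = 0 := (residue_eq_zero_iff c).2 hcm
    rw [hc, hσr, leadingCoeff_eq_zero] at this
    exact hp0 this
  have hGa' : aeval a G = algebraMap R L c *
      ((pb.roots.map σ).map (fun α => a - algebraMap R L α)).prod := by
    rw [hG, map_mul, aeval_C, map_multiset_prod, Multiset.map_map]
    congr 2
    refine Multiset.map_congr rfl fun x _ => ?_
    simp
  rw [hGa', map_mul, h.val_unit hcu, one_mul] at hvG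
  by_contra hcon
  simp only [not_exists, not_lt] at hcon
  have : V.valuation ((pb.roots.map σ).map (fun α => a - algebraMap R L α)).prod = 1 := by
    refine val_multiset_prod_eq_one _ fun x hx => ?_
    obtain ⟨α, -, rfl⟩ := Multiset.mem_map.1 hx
    refine le_antisymm ?_ (hcon α)
    exact (V.valuation_le_one_iff _).2 (sub_mem haV (h.mem α))
  rw [this] at hvG
  exact lt_irrefl _ hvG

include E in
/-- **`w`-adic approximation**: an algebraic element of `V` is `s + wᴺ a'` with `s ∈ R`,
`a' ∈ V`, for every `N`. -/
theorem exists_approx [IsAlgClosed (ResidueField R)] {a : L} (haV : a ∈ V)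
    (ha : IsAlgebraic E a) (N : ℕ) :
    ∃ (s : R) (a' : L), a' ∈ V ∧ a = algebraMap R L s + algebraMap R L w ^ N * a' := by
  induction N with
  | zero => exact ⟨0, a, haV, by simp⟩
  | succ N ih =>
    obtain ⟨s, a', ha'V, hsa⟩ := ih
    have ha'alg : IsAlgebraic E a' := by
      have hw0 : algebraMap R L w ^ N ≠ 0 := pow_ne_zero _ (h.w_ne_zero (E := E))
      have : a' = (a - algebraMap R L s) * (algebraMap R L w ^ N)⁻¹ := by
        rw [hsa]; field_simp; ring
      rw [this]
      have hR : ∀ r : R, IsAlgebraic E (algebraMap R L r) := fun r => by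
        rw [IsScalarTower.algebraMap_apply R E L]
        exact isAlgebraic_algebraMap _
      exact (ha.sub (hR s)).mul (((hR w).pow N).inv)
    obtain ⟨r, hr⟩ := h.exists_approx_one E ha'V ha'alg
    obtain ⟨y, hyV, hy⟩ := h.gen _ ((ValuationSubring.mem_nonunits_iff V).2 hr)
    refine ⟨s + w ^ N * r, y, hyV, ?_⟩
    have : a' = algebraMap R L r + algebraMap R L w * y := by rw [← hy]; ring
    rw [hsa, this, map_add, map_mul, map_pow]
    ring

include E in
/-- **Separatedness**: a nonzero algebraic element of `V` is `w^δ` times a unit of `V`. -/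
theorem exists_pow_mul_unit {x : L} (hxV : x ∈ V) (hx0 : x ≠ 0) (hx : IsAlgebraic E x) :
    ∃ δ : ℕ, V.valuation x = V.valuation (algebraMap R L w) ^ δ := by
  classical
  -- an annihilating polynomial with nonzero constant term
  obtain ⟨p, hp0, hp⟩ := (IsFractionRing.isAlgebraic_iff R E L).2 hx
  obtain ⟨q, hq, hXq⟩ := exists_eq_pow_rootMultiplicity_mul_and_not_dvd p hp0 0
  rw [map_zero, sub_zero] at hq hXq
  have hqx : aeval x q = 0 := by
    rw [hq, map_mul, map_pow, aeval_X] at hp
    exact (mul_eq_zero.1 hp).resolve_left (pow_ne_zero _ hx0)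
  have hq0 : q.coeff 0 ≠ 0 := fun h0 => hXq (X_dvd_iff.2 h0)
  -- `c₀ = - x * (q / X)(x)`
  have hdecomp : algebraMap R L (q.coeff 0) = -(x * aeval x q.divX) := by
    have := divX_mul_X_add q
    have h2 : aeval x q = aeval x q.divX * x + algebraMap R L (q.coeff 0) := by
      conv_lhs => rw [← this]
      simp
    rw [hqx] at h2
    linear_combination -h2
  obtain ⟨n₀, u, -, hn₀⟩ := h.val_eq_pow hq0
  have hle : V.valuation (algebraMap R L w) ^ n₀ ≤ V.valuation x := by
    rw [← hn₀, hdecomp, Valuation.map_neg, map_mul]
    calc V.valuation x * V.valuation (aeval x q.divX) ≤ V.valuation x * 1 := by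
          gcongr
          exact (V.valuation_le_one_iff _).2 (h.aeval_mem _ hxV)
      _ = _ := mul_one _
  -- descending induction
  have key : ∀ k : ℕ, ∀ y : L, y ∈ V → V.valuation (algebraMap R L w) ^ k ≤ V.valuation y →
      ∃ δ : ℕ, V.valuation y = V.valuation (algebraMap R L w) ^ δ := by
    intro k
    induction k with
    | zero =>
      intro y hy hk
      refine ⟨0, le_antisymm ?_ hk⟩
      rw [pow_zero]
      exact (V.valuation_le_one_iff _).2 hy
    | succ k ih =>
      intro y hy hk
      rcases lt_or_ge (V.valuation y) 1 with hlt | hge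
      · obtain ⟨z, hzV, rfl⟩ := h.gen y ((ValuationSubring.mem_nonunits_iff V).2 hlt)
        have hz : V.valuation (algebraMap R L w) ^ k ≤ V.valuation z := by
          rw [map_mul, pow_succ'] at hk
          exact le_of_mul_le_mul_left hk (h.val_w_pos (E := E))
        obtain ⟨δ, hδ⟩ := ih z hzV hz
        exact ⟨δ + 1, by rw [map_mul, hδ, pow_succ']⟩
      · refine ⟨0, le_antisymm ?_ (by simpa using hge)⟩
        rw [pow_zero]
        exact (V.valuation_le_one_iff _).2 hy
  exact key n₀ x hxV hle

end UnifIn

end Setup

end Fermat.Agent.A2.H313
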