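import Mathlib.RingTheory.Henselian
import Mathlib.Algebra.Polynomial.Reverse
import Mathlib.Algebra.Polynomial.Identities
import Mathlib.Algebra.Polynomial.Inductions

/-!
# A2 / ALG (c1), part 1: strong Hensel lemma for Henselian local rings (helper313)

Mathlib only.  `HenselianLocalRing R` is defined in Mathlib through lifting of simple roots of
*monic* polynomials.  We derive

* `exists_root_of_simple_zero` : a (not necessarily monic) polynomial `g` with
  `g(0) ∈ 𝔪` and `g'(0)` a unit has a root in `𝔪`
  (reversed polynomial trick: the reversal of `1 + Z·q(b₀ Z)` is monic);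
* `exists_root_newton` : **Newton form**: if `f(s) = f'(s)² · t` with `t ∈ 𝔪`, then `f` has a
  root `b = s + f'(s) · y` with `y ∈ 𝔪`.
-/

set_option autoImplicit false
set_option linter.style.haveILetI false

namespace Fermat.Agent.A2.H313

open Polynomial IsLocalRing

variable {R : Type*} [CommRing R]

/-- Auxiliary: for `n ≥ 1` and a unit `b` of a field `k`, the polynomial
`X ^ n + C b * X ^ (n - 1)` has the simple root `-b`. -/
theorem aux_eval_reflect {k : Type*} [Field k] (b : k) (n : ℕ) :
    (X ^ (n + 1) + C b * X ^ n : k[X]).eval (-b) = 0 := by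
  simp only [eval_add, eval_pow, eval_X, eval_mul, eval_C]
  ring

theorem aux_eval_derivative_reflect {k : Type*} [Field k] (b : k) (n : ℕ) :
    (derivative (X ^ (n + 1) + C b * X ^ n : k[X])).eval (-b) = (-b) ^ n := by
  have h : (X ^ (n + 1) + C b * X ^ n : k[X]) = X ^ n * (X + C b) := by ring
  rw [h, derivative_mul]
  simp only [eval_add, eval_mul, eval_pow, eval_X, eval_C, derivative_add, derivative_X,
    derivative_C, add_zero, mul_one]
  ring

/-- **Simple roots of arbitrary polynomials lift** (root at `0`). -/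
theorem exists_root_of_simple_zero [HenselianLocalRing R] (g : R[X])
    (h0 : g.eval 0 ∈ maximalIdeal R) (h1 : IsUnit (g.derivative.eval 0)) :
    ∃ y ∈ maximalIdeal R, g.IsRoot y := by
  classical
  -- notation
  set b₀ : R := g.coeff 0 with hb₀
  set q : R[X] := g.divX with hq
  have hg : g = q * X + C b₀ := (divX_mul_X_add g).symm
  have hb₀m : b₀ ∈ maximalIdeal R := by
    have : g.eval 0 = b₀ := by rw [hb₀, coeff_zero_eq_eval_zero]
    rwa [this] at h0
  set b₁ : R := q.eval 0 with hb₁
  have hb₁u : IsUnit b₁ := by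
    have : g.derivative.eval 0 = b₁ := by
      conv_lhs => rw [hg]
      simp [derivative_mul, hb₁]
    rwa [this] at h1
  -- the polynomial `P(Z) = 1 + Z * q(b₀ Z)`
  set P : R[X] := 1 + X * q.comp (C b₀ * X) with hP
  have hPg : ∀ z : R, g.eval (b₀ * z) = b₀ * P.eval z := by
    intro z
    conv_lhs => rw [hg]
    simp only [hP, eval_add, eval_mul, eval_X, eval_C, eval_one, eval_comp]
    ring
  -- reduction of `P` modulo the maximal ideal
  set res := residue R with hres
  have hresb₀ : res b₀ = 0 := (residue_eq_zero_iff b₀).2 hb₀m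
  have hPmap : P.map res = 1 + C (res b₁) * X := by
    rw [hP, Polynomial.map_add, Polynomial.map_one, Polynomial.map_mul, map_X, map_comp,
      Polynomial.map_mul, map_C, hresb₀, map_zero, zero_mul]
    have : (q.map res).comp 0 = C (res b₁) := by
      rw [comp_zero, ← coeff_zero_eq_eval_zero, coeff_map, coeff_zero_eq_eval_zero]
    rw [this, mul_comm]
  have hresb₁ : res b₁ ≠ 0 := by
    intro h
    exact ((residue_eq_zero_iff b₁).1 h) hb₁u
  -- degree of `P` is at least one
  set n := P.natDegree with hn
  have hn1 : 1 ≤ n := by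
    have h1' : (P.map res).natDegree = 1 := by
      rw [hPmap, add_comm]
      exact natDegree_linear hresb₁
    have := natDegree_map_le (f := res) (p := P)
    omega
  obtain ⟨k, hk⟩ : ∃ k, n = k + 1 := ⟨n - 1, by omega⟩
  -- the monic reversed polynomial
  set H : R[X] := reflect n P with hH
  have hHmap : H.map res = X ^ (k + 1) + C (res b₁) * X ^ k := by
    rw [hH, ← reflect_map, hPmap, reflect_add, reflect_one, hk]
    congr 1
    have : (C (res b₁) * X : (ResidueField R)[X]) = C (res b₁) * X ^ 1 := by rw [pow_one]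
    rw [this, reflect_C_mul_X_pow, revAt_le (by omega)]
    simp
  have hHmonic : H.Monic := by
    have hc : H.coeff n = 1 := by
      rw [hH, coeff_reflect, revAt_le le_rfl, Nat.sub_self]
      simp [hP, coeff_one_zero]
    have hdeg : H.natDegree ≤ n := natDegree_reflect_le.trans (by simp [hn])
    rcases Nat.lt_or_ge H.natDegree n with hlt | hge
    · have := coeff_eq_zero_of_natDegree_lt hlt
      rw [hc] at this
      exact absurd this one_ne_zero
    · have hdn : H.natDegree = n := le_antisymm hdeg hge
      rw [Monic, leadingCoeff, hdn, hc]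
  -- Hensel at `T₀ = -b₁`
  have hev : H.eval (-b₁) ∈ maximalIdeal R := by
    rw [← residue_eq_zero_iff]
    have : res (H.eval (-b₁)) = (H.map res).eval (res (-b₁)) := by
      rw [eval_map, eval₂_at_apply]
    rw [this, hHmap, map_neg]
    exact aux_eval_reflect _ _
  have hder : IsUnit (H.derivative.eval (-b₁)) := by
    by_contra hcon
    have hmem : H.derivative.eval (-b₁) ∈ maximalIdeal R := hcon
    rw [← residue_eq_zero_iff] at hmem
    have : res (H.derivative.eval (-b₁)) = ((H.map res).derivative).eval (res (-b₁)) := by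
      rw [derivative_map, eval_map, eval₂_at_apply]
    rw [← hres, this, hHmap, map_neg, aux_eval_derivative_reflect] at hmem
    exact pow_ne_zero k (neg_ne_zero.2 hresb₁) hmem
  obtain ⟨T, hTroot, hTclose⟩ := HenselianLocalRing.is_henselian H hHmonic (-b₁) hev hder
  -- `T` is a unit
  have hTu : IsUnit T := by
    by_contra hcon
    have hTm : T ∈ maximalIdeal R := hcon
    have : -b₁ ∈ maximalIdeal R := by
      have := (maximalIdeal R).sub_mem hTm hTclose
      simpa using this
    exact (neg_mem_iff.1 this) hb₁u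
  obtain ⟨u, rfl⟩ := hTu
  -- `z = T⁻¹` is a root of `P`
  have hz : P.eval (↑u⁻¹ : R) = 0 := by
    letI : Invertible (↑u⁻¹ : R) := ⟨(u : R), by simp, by simp⟩
    have hinv : ⅟(↑u⁻¹ : R) = (u : R) := rfl
    have := (eval₂_reflect_eq_zero_iff (RingHom.id R) (↑u⁻¹ : R) n P le_rfl).1 (by
      rw [hinv]
      have : eval₂ (RingHom.id R) (u : R) (reflect n P) = H.eval (u : R) := by
        rw [hH, eval₂_id]
      rw [this]
      exact hTroot)
    rwa [eval₂_id] at this
  refine ⟨b₀ * ↑u⁻¹, Ideal.mul_mem_right _ _ hb₀m, ?_⟩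
  rw [IsRoot, hPg, hz, mul_zero]

/-- **Simple roots of arbitrary polynomials lift** (root near `a₀`). -/
theorem exists_root_of_simple [HenselianLocalRing R] (g : R[X]) (a₀ : R)
    (h0 : g.eval a₀ ∈ maximalIdeal R) (h1 : IsUnit (g.derivative.eval a₀)) :
    ∃ a : R, g.IsRoot a ∧ a - a₀ ∈ maximalIdeal R := by
  set g' : R[X] := g.comp (X + C a₀) with hg'
  have e0 : g'.eval 0 = g.eval a₀ := by simp [hg', eval_comp]
  have e1 : g'.derivative.eval 0 = g.derivative.eval a₀ := by
    simp [hg', derivative_comp, eval_comp]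
  obtain ⟨y, hy, hroot⟩ := exists_root_of_simple_zero g' (by rwa [e0]) (by rwa [e1])
  refine ⟨y + a₀, ?_, by simpa using hy⟩
  have : g'.eval y = g.eval (y + a₀) := by simp [hg', eval_comp]
  rw [IsRoot, ← this]
  exact hroot

/-- **Strong Hensel lemma (Newton form)** for Henselian local rings: if
`f(s) = f'(s)² · t` with `t ∈ 𝔪`, then `f` has a root `s + f'(s) · y` with `y ∈ 𝔪`. -/
theorem exists_root_newton [HenselianLocalRing R] (f : R[X]) (s t : R)
    (ht : t ∈ maximalIdeal R) (hfs : f.eval s = (f.derivative.eval s) ^ 2 * t) :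
    ∃ y ∈ maximalIdeal R, f.IsRoot (s + f.derivative.eval s * y) := by
  set c : R := f.derivative.eval s with hc
  -- Taylor expansion in `R[Y]`
  obtain ⟨K, hK⟩ := binomExpansion (f.map (C : R →+* R[X])) (C s) (C c * X)
  have e0 : (f.map (C : R →+* R[X])).eval (C s) = C (f.eval s) := by
    rw [eval_map, eval₂_at_apply]
  have e1 : (derivative (f.map (C : R →+* R[X]))).eval (C s) = C c := by
    rw [derivative_map, eval_map, eval₂_at_apply]
  have e2 : (f.map (C : R →+* R[X])).eval (C s + C c * X) = f.comp (C s + C c * X) := by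
    rw [eval_map, comp]
  rw [e0, e1, e2, hfs] at hK
  set g : R[X] := C t + X + K * X ^ 2 with hg
  have hcomp : f.comp (C s + C c * X) = C (c ^ 2) * g := by
    rw [hK, hg]
    simp only [map_mul, map_pow]
    ring
  have hg0 : g.eval 0 ∈ maximalIdeal R := by
    have : g.eval 0 = t := by simp [hg]
    rwa [this]
  have hg1 : IsUnit (g.derivative.eval 0) := by
    have : g.derivative.eval 0 = 1 := by simp [hg, derivative_mul]
    rw [this]
    exact isUnit_one
  obtain ⟨y, hy, hroot⟩ := exists_root_of_simple_zero g hg0 hg1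
  refine ⟨y, hy, ?_⟩
  have : f.eval (s + c * y) = (f.comp (C s + C c * X)).eval y := by
    simp [eval_comp]
  rw [IsRoot, this, hcomp, eval_mul, hroot, mul_zero]

end Fermat.Agent.A2.H313
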