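import Mathlib.Algebra.Polynomial.Derivative
import Mathlib.Algebra.Polynomial.Identities
import Mathlib.Algebra.Polynomial.Div
import Mathlib.Algebra.CharZero.Defs
import Fermat.Agent.A2.H313.StrongHensel
import Fermat.Agent.A2.H313.HensApprox

/-!
# A2 / ALG (c1) = HENS: constants of a split cover (helper313)

**Theorem** (`algebraic_mem_range`).  Let `R` be a Henselian discrete valuation ring with
uniformiser `w` and algebraically closed residue field, `E = Frac R` of characteristic zero,
`L / E` any field extension, and `V` a valuation subring of `L` containing `R` such that `w` is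
a non-unit of `V` generating the non-units of `V` (i.e. `e = 1`; no discreteness or rank
hypothesis on `V` is needed).  Then every element of `L` which is algebraic over `E` lies in `E`.

Use in the wall A2 (`coord/A2.md`, step (c1)): `L = 𝔽` the Kummer cover of `F` in which the
component valuation `V₁` splits, `V` an extension of `V₁` to `𝔽`; conclusion: `E` is
algebraically closed in `𝔽`, so the two-chart model of `𝔽` has `B'_f ∩ B'_i = R` and the
connectedness argument applies to it.

Proof: `w`-adic approximation `a = s_N + w^N a_N` with `s_N ∈ R` (`HensApprox.lean`), an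
annihilating polynomial `f ∈ R[X]` of minimal degree (so `f'(a) ≠ 0`), and the strong Hensel
lemma in Newton form (`StrongHensel.lean`).
-/

set_option autoImplicit false
set_option linter.unusedSectionVars false

namespace Fermat.Agent.A2.H313

open Polynomial IsLocalRing

section Setup

variable {R : Type*} (E : Type*) {L : Type*} [CommRing R] [IsDomain R]
  [IsDiscreteValuationRing R]
  [Field E] [Algebra R E] [IsFractionRing R E]
  [Field L] [Algebra E L] [Algebra R L] [IsScalarTower R E L]
  {w : R} {V : ValuationSubring L}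

include E in
/-- Polynomial expressions over `R` in an algebraic element are algebraic. -/
theorem isAlgebraic_aeval {a : L} (ha : IsAlgebraic E a) (p : R[X]) :
    IsAlgebraic E (aeval a p) := by
  induction p using Polynomial.induction_on' with
  | add p q hp hq =>
    rw [map_add]
    exact hp.add hq
  | monomial n r =>
    rw [aeval_monomial]
    refine IsAlgebraic.mul ?_ (ha.pow n)
    rw [IsScalarTower.algebraMap_apply R E L]
    exact isAlgebraic_algebraMap _

include E in
/-- An annihilating polynomial over `R` of an algebraic element with nonvanishing derivative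
(characteristic zero). -/
theorem exists_separable_annihilator [CharZero E] {a : L} (ha : IsAlgebraic E a) :
    ∃ f : R[X], aeval a f = 0 ∧ aeval a (derivative f) ≠ 0 := by
  classical
  have : CharZero R := (algebraMap R E).charZero
  have hex : ∃ n : ℕ, ∃ p : R[X], p ≠ 0 ∧ aeval a p = 0 ∧ p.natDegree = n := by
    obtain ⟨p, hp0, hp⟩ := (IsFractionRing.isAlgebraic_iff R E L).2 ha
    exact ⟨_, p, hp0, hp, rfl⟩
  obtain ⟨p, hp0, hp, hpn⟩ := Nat.find_spec hex
  refine ⟨p, hp, fun hder => ?_⟩
  have hdeg : p.natDegree ≠ 0 := by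
    intro h0
    rw [eq_C_of_natDegree_eq_zero h0, aeval_C] at hp
    have hc : p.coeff 0 = 0 := (map_eq_zero_iff _ (algebraMap_RL_injective E)).1 hp
    apply hp0
    rw [eq_C_of_natDegree_eq_zero h0, hc, map_zero]
  have hder0 : derivative p ≠ 0 := derivative_ne_zero.2 hdeg
  have hlt : (derivative p).natDegree < Nat.find hex := by
    rw [← hpn]
    exact natDegree_derivative_lt hdeg
  exact Nat.find_min hex hlt ⟨derivative p, hder0, hder, rfl⟩

namespace UnifIn

variable (h : UnifIn w V)
include h

/-- The ring homomorphism `R → V`. -/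
noncomputable def toV : R →+* V := (algebraMap R L).codRestrict V h.mem

theorem coe_eval_map (p : R[X]) (x : V) :
    (((p.map h.toV).eval x : V) : L) = aeval (x : L) p := by
  have := Polynomial.hom_eval₂ p h.toV V.subtype x
  rw [aeval_def, eval_map]
  exact this

/-- Taylor expansion to second order with remainder in `V`. -/
theorem exists_taylor (p : R[X]) {x y : L} (hx : x ∈ V) (hy : y ∈ V) :
    ∃ K ∈ V, aeval (x + y) p = aeval x p + aeval x (derivative p) * y + K * y ^ 2 := by
  obtain ⟨K, hK⟩ := binomExpansion (p.map h.toV) (⟨x, hx⟩ : V) (⟨y, hy⟩ : V)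
  refine ⟨K, K.2, ?_⟩
  have h1 : (((p.map h.toV).eval ((⟨x, hx⟩ : V) + ⟨y, hy⟩) : V) : L) = _ :=
    congrArg Subtype.val hK
  rw [derivative_map] at h1
  push_cast at h1
  simp only [h.coe_eval_map] at h1
  simpa using h1

/-- First order difference quotient in `V`. -/
theorem exists_sub_factor (p : R[X]) {x y : L} (hx : x ∈ V) (hy : y ∈ V) :
    ∃ z ∈ V, aeval x p - aeval y p = z * (x - y) := by
  obtain ⟨z, hz⟩ := evalSubFactor (p.map h.toV) (⟨x, hx⟩ : V) (⟨y, hy⟩ : V)
  refine ⟨z, z.2, ?_⟩
  have h1 : (((p.map h.toV).eval (⟨x, hx⟩ : V) - (p.map h.toV).eval (⟨y, hy⟩ : V) : V) : L) = _ :=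
    congrArg Subtype.val hz
  push_cast at h1
  simp only [h.coe_eval_map] at h1
  simpa using h1

include E in
/-- **HENS, integral case**: an element of `V` which is algebraic over `E` lies in `R`. -/
theorem exists_eq_of_mem [HenselianLocalRing R] [IsAlgClosed (ResidueField R)] [CharZero E]
    {a : L} (haV : a ∈ V) (ha : IsAlgebraic E a) : ∃ b : R, algebraMap R L b = a := by
  obtain ⟨f, hf, hf'⟩ := exists_separable_annihilator (R := R) E ha
  set x : L := aeval a (derivative f) with hx
  have hxV : x ∈ V := h.aeval_mem _ haV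
  obtain ⟨δ, hδ⟩ := h.exists_pow_mul_unit E hxV hf' (isAlgebraic_aeval E ha _)
  obtain ⟨s, a', ha'V, hsa⟩ := h.exists_approx E haV ha (2 * δ + 1)
  set ϖ : L := algebraMap R L w with hϖ
  set q₀ := V.valuation ϖ with hq₀
  have hq0 : 0 < q₀ := h.val_w_pos (E := E)
  have hq1 : q₀ < 1 := h.val_w_lt_one
  have hle1 : ∀ {t : L}, t ∈ V → V.valuation t ≤ 1 := fun ht => (V.valuation_le_one_iff _).2 ht
  have hpowle : ∀ {m n : ℕ}, m ≤ n → q₀ ^ n ≤ q₀ ^ m := fun hmn =>
    (pow_le_pow_iff_right_of_lt_one₀ hq0 hq1).2 hmn
  set y : L := -(ϖ ^ (2 * δ + 1) * a') with hy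
  have hyV : y ∈ V := neg_mem (V.mul_mem _ _ (pow_mem (h.mem w) _) ha'V)
  have hsy : algebraMap R L s = a + y := by rw [hsa, hy]; ring
  have hvy : V.valuation y ≤ q₀ ^ (2 * δ + 1) := by
    rw [hy, Valuation.map_neg, map_mul, map_pow]
    calc q₀ ^ (2 * δ + 1) * V.valuation a' ≤ q₀ ^ (2 * δ + 1) * 1 := by
          gcongr
          exact hle1 ha'V
      _ = _ := mul_one _
  -- the value `f(s)`
  obtain ⟨K, hKV, hK⟩ := h.exists_taylor f haV hyV
  have hfs : algebraMap R L (f.eval s) = x * y + K * y ^ 2 := by
    rw [← aeval_algebraMap_apply_eq_algebraMap_eval, hsy, hK, hf, zero_add]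
  have hvfs : V.valuation (algebraMap R L (f.eval s)) ≤ q₀ ^ (3 * δ + 1) := by
    rw [hfs]
    refine Valuation.map_add_le _ ?_ ?_
    · rw [map_mul, hδ]
      calc q₀ ^ δ * V.valuation y ≤ q₀ ^ δ * q₀ ^ (2 * δ + 1) := by gcongr
        _ = q₀ ^ (3 * δ + 1) := by rw [← pow_add]; congr 1; ring
    · rw [map_mul, map_pow]
      calc V.valuation K * V.valuation y ^ 2 ≤ 1 * (q₀ ^ (2 * δ + 1)) ^ 2 := by
            gcongr
            exact hle1 hKV
        _ = q₀ ^ (4 * δ + 2) := by rw [one_mul, ← pow_mul]; congr 1; ring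
        _ ≤ q₀ ^ (3 * δ + 1) := hpowle (by omega)
  -- the value `f'(s)`
  obtain ⟨z, hzV, hz⟩ := h.exists_sub_factor (derivative f) (h.mem s) haV
  have hc : algebraMap R L ((derivative f).eval s) = x + z * y := by
    rw [← aeval_algebraMap_apply_eq_algebraMap_eval]
    have : algebraMap R L s - a = y := by rw [hsy]; ring
    rw [this] at hz
    rw [hx]
    linear_combination hz
  have hvc : V.valuation (algebraMap R L ((derivative f).eval s)) = q₀ ^ δ := by
    rw [hc, ← hδ]
    apply Valuation.map_add_eq_of_lt_left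
    rw [map_mul, hδ]
    calc V.valuation z * V.valuation y ≤ 1 * q₀ ^ (2 * δ + 1) := by
          gcongr
          exact hle1 hzV
      _ = q₀ ^ (2 * δ + 1) := one_mul _
      _ < q₀ ^ δ := pow_lt_pow_right_of_lt_one₀ hq0 hq1 (by omega)
  set c : R := (derivative f).eval s with hcdef
  have hc0 : c ≠ 0 := by
    intro h0
    rw [h0, map_zero, map_zero] at hvc
    exact (pow_pos hq0 δ).ne hvc
  obtain ⟨k, u, hcu, hck⟩ := h.val_eq_pow hc0
  have hkδ : k = δ := h.val_pow_injective (E := E) (hck.symm.trans hvc)
  subst hkδ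
  obtain ⟨r₁, hr₁⟩ := h.pow_dvd_of_val_le (E := E) hvfs
  -- Newton
  set t : R := (↑(u⁻¹) : R) ^ 2 * (w ^ (k + 1) * r₁) with ht
  have htm : t ∈ maximalIdeal R := by
    have hwm : w ∈ maximalIdeal R := h.irr.not_isUnit
    have e : t = w * ((↑(u⁻¹) : R) ^ 2 * (w ^ k * r₁)) := by rw [ht]; ring
    rw [e]
    exact Ideal.mul_mem_right _ _ hwm
  have hnewton : f.eval s = ((derivative f).eval s) ^ 2 * t := by
    rw [← hcdef, hr₁, hcu, ht]
    have huu : (u : R) * ((u⁻¹ : Rˣ) : R) = 1 := Units.mul_inv u
    have e : 3 * k + 1 = 2 * k + (k + 1) := by ring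
    rw [e, pow_add]
    linear_combination (-(w ^ (2 * k) * (w ^ (k + 1) * r₁)) * ((u : R) * ((u⁻¹ : Rˣ) : R) + 1)) * huu
  obtain ⟨y₀, hy₀, hroot⟩ := exists_root_newton f s t htm hnewton
  rw [← hcdef] at hroot
  set b : R := s + c * y₀ with hb
  -- `a` is close to `b`
  have hvab : V.valuation (a - algebraMap R L b) ≤ q₀ ^ (k + 1) := by
    have e : a - algebraMap R L b = -y - algebraMap R L c * algebraMap R L y₀ := by
      rw [hb, map_add, map_mul, hsy]; ring
    rw [e]
    refine Valuation.map_sub_le _ ?_ ?_
    · rw [Valuation.map_neg]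
      exact hvy.trans (hpowle (by omega))
    · rw [map_mul, hck, pow_succ]
      gcongr
      exact h.val_le_w_of_mem_maximalIdeal hy₀
  -- conclusion
  refine ⟨b, ?_⟩
  by_contra hne
  have hab : a - algebraMap R L b ≠ 0 := sub_ne_zero.2 (Ne.symm hne)
  have hfact : (X - C b) * (f /ₘ (X - C b)) = f := mul_divByMonic_eq_iff_isRoot.2 hroot
  set g : R[X] := f /ₘ (X - C b) with hg
  have hga : aeval a g = 0 := by
    have := hf
    rw [← hfact, map_mul, map_sub, aeval_X, aeval_C] at this
    exact (mul_eq_zero.1 this).resolve_left hab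
  have hxa : x = (a - algebraMap R L b) * aeval a (derivative g) := by
    rw [hx, ← hfact, derivative_mul, map_add, map_mul, map_mul, hga, mul_zero, zero_add]
    simp
  have : V.valuation x ≤ q₀ ^ (k + 1) := by
    rw [hxa, map_mul]
    calc V.valuation (a - algebraMap R L b) * V.valuation (aeval a (derivative g))
        ≤ q₀ ^ (k + 1) * 1 := by
          gcongr
          exact hle1 (h.aeval_mem _ haV)
      _ = _ := mul_one _
  rw [hδ] at this
  exact absurd this (not_le.2 (pow_lt_pow_right_of_lt_one₀ hq0 hq1 (Nat.lt_succ_self k)))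

include E in
/-- **HENS**: the constants of `L`.  `R` Henselian DVR with uniformiser `w` and algebraically
closed residue field, `E = Frac R` of characteristic zero, `V` a valuation subring of `L`
containing `R`, with `w` generating the non-units of `V`.  Then every element of `L` algebraic
over `E` lies in (the image of) `E`. -/
theorem algebraic_mem_range [HenselianLocalRing R] [IsAlgClosed (ResidueField R)] [CharZero E]
    {a : L} (ha : IsAlgebraic E a) : a ∈ (algebraMap E L).range := by
  rcases V.mem_or_inv_mem a with haV | haV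
  · obtain ⟨b, rfl⟩ := h.exists_eq_of_mem E haV ha
    exact ⟨algebraMap R E b, (IsScalarTower.algebraMap_apply R E L b).symm⟩
  · obtain ⟨b, hb⟩ := h.exists_eq_of_mem E haV ha.inv
    refine ⟨(algebraMap R E b)⁻¹, ?_⟩
    rw [map_inv₀, ← IsScalarTower.algebraMap_apply R E L b, hb, inv_inv]

end UnifIn

end Setup

end Fermat.Agent.A2.H313

namespace Fermat.Agent.A2.H313

open IsLocalRing

/-- **HENS** (piece (c1) of the wall A2), hypotheses unbundled, typeclasses as in
`Fermat.Agent.A2.algSS`: `R` Henselian DVR with uniformiser `w` and algebraically closed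
residue field, `E = Frac R` of characteristic zero, `L / E` any field, `V` a valuation subring
of `L` containing `R` in which `w` is a non-unit generating all non-units.  Then `E` is
algebraically closed in `L`. -/
theorem hens {R E L : Type*} [CommRing R] [IsDomain R] [IsDiscreteValuationRing R]
    [HenselianLocalRing R] [IsAlgClosed (ResidueField R)]
    [Field E] [CharZero E] [Algebra R E] [IsFractionRing R E]
    [Field L] [Algebra E L] [Algebra R L] [IsScalarTower R E L]
    (w : R) (hw : Irreducible w) (V : ValuationSubring L)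
    (hRV : ∀ r : R, algebraMap R L r ∈ V)
    (hw1 : algebraMap R L w ∈ V.nonunits)
    (hw2 : ∀ x ∈ V.nonunits, ∃ y ∈ V, x = algebraMap R L w * y)
    (a : L) (ha : IsAlgebraic E a) : a ∈ (algebraMap E L).range :=
  UnifIn.algebraic_mem_range E ⟨hw, hRV, hw1, hw2⟩ ha

/-- Variant of `hens`: the conclusion for the integral elements, `V ∩ (algebraic closure of
`E` in `L`) = R`. -/
theorem hens_integral {R E L : Type*} [CommRing R] [IsDomain R] [IsDiscreteValuationRing R]
    [HenselianLocalRing R] [IsAlgClosed (ResidueField R)]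
    [Field E] [CharZero E] [Algebra R E] [IsFractionRing R E]
    [Field L] [Algebra E L] [Algebra R L] [IsScalarTower R E L]
    (w : R) (hw : Irreducible w) (V : ValuationSubring L)
    (hRV : ∀ r : R, algebraMap R L r ∈ V)
    (hw1 : algebraMap R L w ∈ V.nonunits)
    (hw2 : ∀ x ∈ V.nonunits, ∃ y ∈ V, x = algebraMap R L w * y)
    (a : L) (haV : a ∈ V) (ha : IsAlgebraic E a) : ∃ b : R, algebraMap R L b = a :=
  UnifIn.exists_eq_of_mem E ⟨hw, hRV, hw1, hw2⟩ haV ha

end Fermat.Agent.A2.H313
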