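import Fermat.Agent.A2.H12.GSpec
import Fermat.Agent.A2.H313.Hens

/-!
# A2 / route G, leaf CONST (helper313): `ConstConclusion` in the exact `GSpec` form

`H12.GSpec.ConstConclusion L x` asks, for a cover `L / F`:

* `closed` : `R` is integrally closed in `L`;
* `finite` : `L` is finite over `baseField R x_L`.

Here:

* `finiteDimensional_baseField_tower` : `F` finite over `baseField R x` and `L` finite over `F`
  imply `L` finite over `baseField R (algebraMap F L x)` (no hypothesis on `R`).
* `closed_of_sheet` : `R` a henselian DVR with algebraically closed residue field, `L ⊇ R` a field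
  of characteristic `0`, `W` a valuation subring of `L` containing `R` whose non-units are the
  multiples of `w` (a sheet with `e = 1`): `R` is integrally closed in `L` (`hens_integral`).
* `constConclusion_of_sheets` : `SheetsConclusion L w x` + one sheet of `F` ⇒ `ConstConclusion L x`.
* `hConst_of_hSheets` : the hypothesis `hConst` of `H12.algG` from its hypothesis `hSheets`.
-/

set_option autoImplicit false
set_option linter.style.haveILetI false

namespace Fermat.Agent.A2.H313

open Fermat.Agent.S18.H138 (baseField)
open Fermat.Agent.A2.H12

universe u

section Finite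

variable {R : Type*} [CommRing R] {F : Type*} [Field F] [Algebra R F]
  {L : Type*} [Field L] [Algebra F L] [Algebra R L] [IsScalarTower R F L]

/-- The image of `baseField R x` in a cover lies in `baseField R x_L`. -/
theorem algebraMap_mem_baseField (x : F) {a : F} (ha : a ∈ baseField R x) :
    algebraMap F L a ∈ baseField R (algebraMap F L x) := by
  have hle : baseField R x ≤
      Subfield.comap (algebraMap F L) (baseField R (algebraMap F L x)) := by
    refine Subfield.closure_le.2 ?_
    rintro y (⟨r, rfl⟩ | hy)
    · rw [SetLike.mem_coe, Subfield.mem_comap, ← IsScalarTower.algebraMap_apply]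
      exact Subfield.subset_closure (Or.inl ⟨r, rfl⟩)
    · rw [Set.mem_singleton_iff] at hy
      subst hy
      rw [SetLike.mem_coe, Subfield.mem_comap]
      exact Subfield.subset_closure (Or.inr rfl)
  exact hle ha

/-- **CONST, finiteness part.**  `L / F` finite and `F / baseField R x` finite imply
`L / baseField R x_L` finite. -/
theorem finiteDimensional_baseField_tower (x : F) [FiniteDimensional (baseField R x) F]
    [FiniteDimensional F L] : FiniteDimensional (baseField R (algebraMap F L x)) L := by
  let φ : baseField R x →+* baseField R (algebraMap F L x) :=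
    ((algebraMap F L).comp (baseField R x).subtype).codRestrict _
      (fun a => algebraMap_mem_baseField (R := R) (L := L) x a.2)
  letI : Algebra (baseField R x) (baseField R (algebraMap F L x)) := φ.toAlgebra
  haveI : IsScalarTower (baseField R x) (baseField R (algebraMap F L x)) L := by
    refine ⟨fun a b c => ?_⟩
    have h1 : ((a • b : baseField R (algebraMap F L x)) : L) = algebraMap F L (a : F) * (b : L) := by
      rw [Algebra.smul_def]
      rfl
    rw [Subfield.smul_def, h1, Subfield.smul_def, Subfield.smul_def, smul_eq_mul, smul_eq_mul,
      Algebra.smul_def, mul_assoc]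
  haveI : Module.Finite (baseField R x) L := Module.Finite.trans (R := baseField R x) F L
  exact Module.Finite.of_restrictScalars_finite (baseField R x) (baseField R (algebraMap F L x)) L

/-- With `E = Frac R`: `baseField R x` is the field `E(x)`. -/
theorem baseField_eq_adjoin (E : Type*) [Field E] [Algebra R E] [IsFractionRing R E]
    [Algebra E F] [IsScalarTower R E F] (x : F) :
    baseField R x = (IntermediateField.adjoin E ({x} : Set F)).toSubfield := by
  rw [IntermediateField.adjoin_toSubfield]
  apply le_antisymm
  · refine Subfield.closure_mono (Set.union_subset_union_left _ ?_)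
    rintro _ ⟨r, rfl⟩
    exact ⟨algebraMap R E r, (IsScalarTower.algebraMap_apply R E F r).symm⟩
  · refine Subfield.closure_le.2 ?_
    rintro y (⟨e, rfl⟩ | hy)
    · obtain ⟨a, b, -, rfl⟩ := IsFractionRing.div_surjective (A := R) e
      rw [map_div₀, ← IsScalarTower.algebraMap_apply, ← IsScalarTower.algebraMap_apply]
      exact (baseField R x).div_mem (Subfield.subset_closure (Or.inl ⟨a, rfl⟩))
        (Subfield.subset_closure (Or.inl ⟨b, rfl⟩))
    · exact Subfield.subset_closure (Or.inr hy)

/-- `F` finite over `E(x)` (as in `AlgSSStatement`) implies `F` finite over `baseField R x`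
(as in `H12.algG`, `H729`, `H348`). -/
theorem finiteDimensional_baseField_of_adjoin (E : Type*) [Field E] [Algebra R E]
    [IsFractionRing R E] [Algebra E F] [IsScalarTower R E F] (x : F)
    [FiniteDimensional (IntermediateField.adjoin E ({x} : Set F)) F] :
    FiniteDimensional (baseField R x) F := by
  have hle : ∀ a : IntermediateField.adjoin E ({x} : Set F), (a : F) ∈ baseField R x := by
    intro a
    rw [baseField_eq_adjoin E x]
    exact a.2
  let φ : IntermediateField.adjoin E ({x} : Set F) →+* baseField R x :=
    (algebraMap (IntermediateField.adjoin E ({x} : Set F)) F).codRestrict _ hle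
  letI : Algebra (IntermediateField.adjoin E ({x} : Set F)) (baseField R x) := φ.toAlgebra
  haveI : IsScalarTower (IntermediateField.adjoin E ({x} : Set F)) (baseField R x) F := by
    refine ⟨fun a b c => ?_⟩
    have h1 : ((a • b : baseField R x) : F) = (a : F) * (b : F) := by
      rw [Algebra.smul_def]
      rfl
    rw [Subfield.smul_def, h1, Subfield.smul_def, smul_eq_mul, smul_eq_mul,
      Algebra.smul_def, mul_assoc]
    rfl
  exact Module.Finite.of_restrictScalars_finite (IntermediateField.adjoin E ({x} : Set F))
    (baseField R x) F

end Finite

section Closed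

variable {R : Type*} [CommRing R] [IsDomain R] [IsDiscreteValuationRing R]
  [HenselianLocalRing R] [IsAlgClosed (IsLocalRing.ResidueField R)]
  {L : Type*} [Field L] [CharZero L] [Algebra R L]

/-- **CONST, constants part.**  If some valuation subring `W` of `L` contains `R` and has
`𝔪_W = w W`, then `R` is integrally closed in `L` (indeed algebraically closed in `W`). -/
theorem closed_of_sheet (hinj : Function.Injective (algebraMap R L))
    (w : R) (hw : Irreducible w) (W : ValuationSubring L)
    (hRW : ∀ r : R, algebraMap R L r ∈ W)
    (hw1 : algebraMap R L w ∈ W.nonunits)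
    (hw2 : ∀ a ∈ W.nonunits, ∃ b ∈ W, a = algebraMap R L w * b)
    (y : L) (hy : IsIntegral R y) : y ∈ Set.range (algebraMap R L) := by
  haveI : FaithfulSMul R L := (faithfulSMul_iff_algebraMap_injective R L).2 hinj
  letI : Algebra (FractionRing R) L := FractionRing.liftAlgebra R L
  haveI : IsScalarTower R (FractionRing R) L := FractionRing.isScalarTower_liftAlgebra R L
  haveI : CharZero (FractionRing R) := (algebraMap (FractionRing R) L).charZero
  -- `y ∈ W`, since `W` is integrally closed and contains `R`
  have hyW : y ∈ W := by
    obtain ⟨p, hp, hpy⟩ := hy
    let g : R →+* W := (algebraMap R L).codRestrict W.toSubring hRW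
    have hint : IsIntegral W y := by
      refine ⟨p.map g, hp.map g, ?_⟩
      rw [Polynomial.eval₂_map]
      exact hpy
    obtain ⟨z, hz⟩ := (IsIntegrallyClosed.isIntegral_iff (R := W) (K := L)).1 hint
    rw [← hz]
    exact z.2
  have hyalg : IsAlgebraic (FractionRing R) y :=
    (hy.tower_top (A := FractionRing R)).isAlgebraic
  exact hens_integral (E := FractionRing R) w hw W hRW hw1 hw2 y hyW hyalg

end Closed

section Leaf

variable {R : Type u} [CommRing R] [IsDomain R] [IsDiscreteValuationRing R]
  [HenselianLocalRing R] [IsAlgClosed (IsLocalRing.ResidueField R)]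
  {F : Type u} [Field F] [Algebra R F] [CharZero F]

/-- **Leaf CONST of route G** for one cover: from the leaf SHEETS (only `exists_over` and `unif`
are used) and the existence of one sheet of `F`. -/
theorem constConclusion_of_sheets
    (L : Type u) [Field L] [Algebra F L] [Algebra R L] [IsScalarTower R F L]
    [FiniteDimensional F L]
    (hinj : Function.Injective (algebraMap R F))
    (w : R) (hw : Prime w) (x : F) [FiniteDimensional (baseField R x) F]
    (hsheet : ∃ V : ValuationSubring F, IsSheet w x V)
    (hS : SheetsConclusion L w x) : ConstConclusion (R := R) L x where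
  closed := by
    obtain ⟨V, hV⟩ := hsheet
    obtain ⟨W, hW, -⟩ := hS.exists_over V hV
    haveI : CharZero L := charZero_of_injective_algebraMap (algebraMap F L).injective
    have hinjL : Function.Injective (algebraMap R L) := by
      rw [IsScalarTower.algebraMap_eq R F L]
      exact (algebraMap F L).injective.comp hinj
    exact closed_of_sheet hinjL w hw.irreducible W hW.1 hW.2.2.1 (hS.unif W hW)
  finite := finiteDimensional_baseField_tower x

/-- **Leaf CONST of route G**, in the exact shape of the hypothesis `hConst` of `H12.algG`,
from its hypothesis `hSheets` (and `hsheet`). -/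
theorem hConst_of_hSheets
    (hinj : Function.Injective (algebraMap R F))
    (w : R) (hw : Prime w) (x : F) [FiniteDimensional (baseField R x) F] (m : ℕ)
    (hsheet : ∃ V : ValuationSubring F, IsSheet w x V)
    (hSheets : ∀ (L : Type u) [Field L] [Algebra F L] [Algebra R L] [IsScalarTower R F L],
      IsKummerSplit L w x m → SheetsConclusion L w x) :
    ∀ (L : Type u) [Field L] [Algebra F L] [Algebra R L] [IsScalarTower R F L],
      IsKummerSplit L w x m → ConstConclusion (R := R) L x := by
  intro L _ _ _ _ hKS
  haveI := hKS.finite
  exact constConclusion_of_sheets L hinj w hw x hsheet (hSheets L hKS)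

end Leaf

end Fermat.Agent.A2.H313
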